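import Mathlib
import Fermat.Agent.S13.TwoAdic.XCore.Basic
import Fermat.Agent.S05.Core.URB

/-!
# S13 / TwoAdic / XCoreT: independent proof of `ur_B1` (doubling of the leaf `XCore.ur_B1` of
`Fermat/Agent/S13/TwoAdic/XCore/URB.lean`; statement identical, binders explicit).
Owner: one worker of helper1's team.  Auxiliary declarations: namespace `XCoreT.B1` only.
-/

set_option autoImplicit false

namespace Fermat.Agent.S13.TwoAdic.XCoreT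

open Fermat.Agent.S05 (fold qt clip URConcl newton_two_roots)

namespace B1

variable {K : Type*} [Field K] {Γ₀ : Type*} [LinearOrderedCommGroupWithZero Γ₀]
variable {v : Valuation K Γ₀} {b₂ a₄ x₁ x₂ r₁ r₂ : K}

theorem v_mul_sub (hB : v x₁ * v x₂ < v a₄) : v (x₁ * x₂ - a₄) = v a₄ :=
  v.map_sub_eq_of_lt_right (by rw [map_mul]; exact hB)

theorem v_mul_add (hB : v x₁ * v x₂ < v a₄) : v (x₁ * x₂ + a₄) = v a₄ :=
  v.map_add_eq_of_lt_right (by rw [map_mul]; exact hB)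

/-- `v Π = (ε / a)²`. -/
theorem v_prod (H : URHyp2 v b₂ a₄ x₁ x₂ r₁ r₂) (hlt : v x₂ < v x₁)
    (hB : v x₁ * v x₂ < v a₄) : v (r₁ * r₂) = (v a₄ / v x₁) ^ 2 := by
  rw [H.hprod, map_div₀, map_pow, map_pow, v_mul_sub hB, Fermat.Agent.S05.URB.v_sub hlt,
    div_pow]

/-- `v S ≤ ε / a` (only a bound: no information on `v 2` beyond `v 2 ≤ 1`). -/
theorem v_sum_le (H : URHyp2 v b₂ a₄ x₁ x₂ r₁ r₂) (hlt : v x₂ < v x₁)
    (hB : v x₁ * v x₂ < v a₄) (h1 : v x₂ ≤ v a₄) : v (r₁ + r₂) ≤ v a₄ / v x₁ := by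
  have ha : 0 < v x₁ := Fermat.Agent.S05.URB.a_pos hlt
  have hnum : v (2 * (x₁ * x₂ + a₄) * (x₁ + x₂) + b₂ * x₁ * x₂) ≤ v x₁ * v a₄ := by
    refine (v.map_add _ _).trans (max_le ?_ ?_)
    · refine (XCore.val_T1_le v a₄ x₁ x₂).trans ?_
      rw [v_mul_add hB, Fermat.Agent.S05.URB.v_add hlt, mul_comm]
    · rw [XCore.val_T2 H]
      exact mul_le_mul' le_rfl h1
  rw [H.hsum, map_div₀, map_pow, Fermat.Agent.S05.URB.v_sub hlt]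
  calc v (2 * (x₁ * x₂ + a₄) * (x₁ + x₂) + b₂ * x₁ * x₂) / v x₁ ^ 2
      ≤ (v x₁ * v a₄) / v x₁ ^ 2 := (div_le_div_iff_of_pos_right (pow_pos ha 2)).mpr hnum
    _ = v a₄ / v x₁ := by rw [sq, mul_div_mul_left _ _ ha.ne']

/-- Both roots have valuation `ε / a`. -/
theorem roots_B12 (H : URHyp2 v b₂ a₄ x₁ x₂ r₁ r₂) (hlt : v x₂ < v x₁)
    (hB : v x₁ * v x₂ < v a₄) (h1 : v x₂ ≤ v a₄) :
    v r₁ = v a₄ / v x₁ ∧ v r₂ = v a₄ / v x₁ := by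
  have hS := v_sum_le H hlt hB h1
  have hP := v_prod H hlt hB
  obtain ⟨h12, hsq⟩ := (newton_two_roots v (rfl : r₁ + r₂ = r₁ + r₂)
    (rfl : r₁ * r₂ = r₁ * r₂)).2 (by rw [hP]; exact pow_le_pow_left' hS 2)
  have hr1 : v r₁ = v a₄ / v x₁ :=
    (pow_left_inj₀ zero_le zero_le two_ne_zero).1 (hsq.trans hP)
  exact ⟨hr1, h12 ▸ hr1⟩

/-- Cases B1, B2 together (`v x₂ ≤ v a₄`). -/
theorem concl_B12 (H : URHyp2 v b₂ a₄ x₁ x₂ r₁ r₂) (hlt : v x₂ < v x₁)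
    (hB : v x₁ * v x₂ < v a₄) (h1 : v x₂ ≤ v a₄) :
    URConcl (v a₄) (v x₁) (v x₂) (v r₁) (v r₂) := by
  obtain ⟨hr1, hr2⟩ := roots_B12 H hlt hB h1
  have hε0 : 0 < v a₄ := XCore.eps_pos H
  have hε1 : v a₄ ≤ 1 := H.ha₄.le
  have ha : 0 < v x₁ := Fermat.Agent.S05.URB.a_pos hlt
  have hb : clip (v a₄) (v x₂) = v a₄ := Fermat.Agent.S05.URB.clip_of_le h1
  have hs0 : v a₄ ≤ clip (v a₄) (v x₁) := Fermat.Agent.S05.URB.le_clip _ _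
  have hs1 : clip (v a₄) (v x₁) ≤ 1 := Fermat.Agent.S05.URB.clip_le_one hε1 _
  left
  rw [hr1, hr2, hb, Fermat.Agent.S05.URB.clip_div hε0 hε1 ha,
    Fermat.Agent.S05.URB.fold_mul_eps hε0 hs1, Fermat.Agent.S05.URB.qt_eps hε0 hs0]
  exact ⟨rfl, rfl⟩

end B1

theorem ur_B1 {K : Type*} [Field K] {Γ₀ : Type*} [LinearOrderedCommGroupWithZero Γ₀]
    {v : Valuation K Γ₀} {b₂ a₄ x₁ x₂ r₁ r₂ : K}
    (H : URHyp2 v b₂ a₄ x₁ x₂ r₁ r₂) (hlt : v x₂ < v x₁) (hB : v x₁ * v x₂ < v a₄)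
    (h1 : v x₂ < v a₄) : URConcl (v a₄) (v x₁) (v x₂) (v r₁) (v r₂) := by
  exact B1.concl_B12 H hlt hB h1.le

end Fermat.Agent.S13.TwoAdic.XCoreT
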