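import Mathlib
import Fermat.Agent.S13.TwoAdic.XCore.Basic
import Fermat.Agent.S05.Core.URB

/-!
# S13 / TwoAdic / XCoreT: independent proof of `ur_B3` (doubling of the leaf `XCore.ur_B3` of
`Fermat/Agent/S13/TwoAdic/XCore/URB.lean`; statement identical, binders explicit).
Owner: one worker of helper1's team.  Auxiliary declarations: namespace `XCoreT.B3` only.
-/

set_option autoImplicit false

namespace Fermat.Agent.S13.TwoAdic.XCoreT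

open Fermat.Agent.S05 (fold qt clip URConcl newton_two_roots)

namespace B3

variable {K : Type*} [Field K] {Γ₀ : Type*} [LinearOrderedCommGroupWithZero Γ₀]
variable {v : Valuation K Γ₀} {b₂ a₄ x₁ x₂ r₁ r₂ : K}

theorem a_pos (hlt : v x₂ < v x₁) : 0 < v x₁ := lt_of_le_of_lt zero_le hlt

theorem v_sub (hlt : v x₂ < v x₁) : v (x₁ - x₂) = v x₁ := v.map_sub_eq_of_lt_left hlt

theorem v_add (hlt : v x₂ < v x₁) : v (x₁ + x₂) = v x₁ := v.map_add_eq_of_lt_left hlt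

theorem v_mul_sub (hB : v x₁ * v x₂ < v a₄) : v (x₁ * x₂ - a₄) = v a₄ :=
  v.map_sub_eq_of_lt_right (by rw [map_mul]; exact hB)

theorem v_mul_add (hB : v x₁ * v x₂ < v a₄) : v (x₁ * x₂ + a₄) = v a₄ :=
  v.map_add_eq_of_lt_right (by rw [map_mul]; exact hB)

/-- `v Π = (ε / a)²`. -/
theorem v_prod (H : URHyp2 v b₂ a₄ x₁ x₂ r₁ r₂) (hlt : v x₂ < v x₁) (hB : v x₁ * v x₂ < v a₄) :
    v (r₁ * r₂) = (v a₄ / v x₁) ^ 2 := by
  rw [H.hprod, map_div₀, map_pow, map_pow, v_mul_sub hB, v_sub hlt, div_pow]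

/-- The `2`-term of the numerator is bounded by `ε a`. -/
theorem v_T1_le (hlt : v x₂ < v x₁) (hB : v x₁ * v x₂ < v a₄) :
    v (2 * (x₁ * x₂ + a₄) * (x₁ + x₂)) ≤ v a₄ * v x₁ := by
  have h := XCore.val_T1_le v a₄ x₁ x₂
  rwa [v_mul_add hB, v_add hlt] at h

/-- Case B3: `a < 1`. -/
theorem a_lt_one (hB : v x₁ * v x₂ < v a₄) (h1 : v a₄ < v x₂) : v x₁ < 1 := by
  by_contra h
  have h' : v x₂ ≤ v x₁ * v x₂ := le_mul_of_one_le_left' (not_lt.1 h)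
  exact absurd (h'.trans_lt hB) (not_lt.2 h1.le)

/-- Case B3: `v (numerator) = a b`. -/
theorem v_num (H : URHyp2 v b₂ a₄ x₁ x₂ r₁ r₂) (hlt : v x₂ < v x₁) (hB : v x₁ * v x₂ < v a₄)
    (h1 : v a₄ < v x₂) :
    v (2 * (x₁ * x₂ + a₄) * (x₁ + x₂) + b₂ * x₁ * x₂) = v x₁ * v x₂ := by
  have hT2 := XCore.val_T2 H
  have hlt' : v (2 * (x₁ * x₂ + a₄) * (x₁ + x₂)) < v (b₂ * x₁ * x₂) := by
    rw [hT2]
    refine lt_of_le_of_lt (v_T1_le hlt hB) ?_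
    rw [mul_comm (v a₄) (v x₁)]
    exact (mul_lt_mul_iff_of_pos_left (a_pos hlt)).mpr h1
  rw [v.map_add_eq_of_lt_right hlt', hT2]

/-- Case B3: `v S = b / a`. -/
theorem v_sum (H : URHyp2 v b₂ a₄ x₁ x₂ r₁ r₂) (hlt : v x₂ < v x₁) (hB : v x₁ * v x₂ < v a₄)
    (h1 : v a₄ < v x₂) : v (r₁ + r₂) = v x₂ / v x₁ := by
  rw [H.hsum, map_div₀, map_pow, v_sub hlt, v_num H hlt hB h1, sq,
    mul_div_mul_left _ _ (a_pos hlt).ne']

/-- Case B3: the two roots have valuations `b / a` and `ε² / (a b)`. -/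
theorem roots (H : URHyp2 v b₂ a₄ x₁ x₂ r₁ r₂) (hlt : v x₂ < v x₁) (hB : v x₁ * v x₂ < v a₄)
    (h1 : v a₄ < v x₂) :
    (v r₁ = v x₂ / v x₁ ∧ v r₂ = v a₄ ^ 2 / (v x₁ * v x₂)) ∨
      (v r₂ = v x₂ / v x₁ ∧ v r₁ = v a₄ ^ 2 / (v x₁ * v x₂)) := by
  have ha := a_pos hlt
  have hb : 0 < v x₂ := lt_trans (XCore.eps_pos H) h1
  have hS := v_sum H hlt hB h1
  have hP := v_prod H hlt hB
  have hlt' : v (r₁ * r₂) < v (r₁ + r₂) ^ 2 := by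
    rw [hP, hS]
    exact pow_lt_pow_left₀ ((div_lt_div_iff_of_pos_right ha).mpr h1) zero_le two_ne_zero
  rcases (newton_two_roots v (rfl : r₁ + r₂ = r₁ + r₂) (rfl : r₁ * r₂ = r₁ * r₂)).1 hlt'
    with ⟨h, h'⟩ | ⟨h, h'⟩
  · left
    rw [hS] at h h'
    rw [hP] at h'
    exact ⟨h, Fermat.Agent.S05.URB.other_root ha hb h'⟩
  · right
    rw [hS] at h h'
    rw [hP] at h'
    exact ⟨h, Fermat.Agent.S05.URB.other_root ha hb h'⟩

end B3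

theorem ur_B3 {K : Type*} [Field K] {Γ₀ : Type*} [LinearOrderedCommGroupWithZero Γ₀]
    {v : Valuation K Γ₀} {b₂ a₄ x₁ x₂ r₁ r₂ : K}
    (H : URHyp2 v b₂ a₄ x₁ x₂ r₁ r₂) (hlt : v x₂ < v x₁) (hB : v x₁ * v x₂ < v a₄)
    (h1 : v a₄ < v x₂) : URConcl (v a₄) (v x₁) (v x₂) (v r₁) (v r₂) := by
  have hε0 := XCore.eps_pos H
  obtain ⟨hq, hf⟩ :=
    Fermat.Agent.S05.URB.concl_B3_aux hε0 h1 hlt (B3.a_lt_one hB h1) hB
  rcases B3.roots H hlt hB h1 with ⟨h, h'⟩ | ⟨h, h'⟩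
  · right
    rw [h, h']
    exact ⟨hq, hf⟩
  · left
    rw [h, h']
    exact ⟨hf, hq⟩

end Fermat.Agent.S13.TwoAdic.XCoreT
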