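import Mathlib
import Fermat.Agent.S13.TwoAdic.XCore.Basic
import Fermat.Agent.S05.Core.URD

/-!
# S13 / TwoAdic / XCoreT: independent proof of `ur_D1` (doubling of the leaf `XCore.ur_D1` of
`Fermat/Agent/S13/TwoAdic/XCore/URD.lean`; statement identical, binders explicit).
Owner: one worker of helper1's team.  Auxiliary declarations: namespace `XCoreT.D1` only.
-/

set_option autoImplicit false

namespace Fermat.Agent.S13.TwoAdic.XCoreT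

open Fermat.Agent.S05 (fold qt clip URConcl newton_two_roots)

namespace D1

/-- Both roots have valuation `≥ 1` as soon as `v (x₁ - x₂) ≤ v (x₁ x₂ - a₄)` and the numerator
of the sum is bounded by `v (x₁ x₂ - a₄) ^ 2`. -/
theorem one_le_both {K : Type*} [Field K] {Γ₀ : Type*} [LinearOrderedCommGroupWithZero Γ₀]
    {v : Valuation K Γ₀} {b₂ a₄ x₁ x₂ r₁ r₂ : K}
    (H : URHyp2 v b₂ a₄ x₁ x₂ r₁ r₂)
    (hm : v (x₁ - x₂) ≤ v (x₁ * x₂ - a₄))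
    (hn : v (2 * (x₁ * x₂ + a₄) * (x₁ + x₂) + b₂ * x₁ * x₂) ≤ v (x₁ * x₂ - a₄) ^ 2) :
    1 ≤ v r₁ ∧ 1 ≤ v r₂ := by
  have hδ : v (x₁ - x₂) ≠ 0 := (Valuation.ne_zero_iff v).mpr (sub_ne_zero.mpr H.hne)
  have hδ2 : 0 < v (x₁ - x₂) ^ 2 := pow_pos (zero_lt_iff.mpr hδ) 2
  have hT : v ((x₁ * x₂ - a₄) ^ 2 / (x₁ - x₂) ^ 2)
      = v (x₁ * x₂ - a₄) ^ 2 / v (x₁ - x₂) ^ 2 := by
    rw [map_div₀, map_pow, map_pow]
  have hS : v ((2 * (x₁ * x₂ + a₄) * (x₁ + x₂) + b₂ * x₁ * x₂) / (x₁ - x₂) ^ 2)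
      = v (2 * (x₁ * x₂ + a₄) * (x₁ + x₂) + b₂ * x₁ * x₂) / v (x₁ - x₂) ^ 2 := by
    rw [map_div₀, map_pow]
  have h1 : 1 ≤ v ((x₁ * x₂ - a₄) ^ 2 / (x₁ - x₂) ^ 2) := by
    rw [hT, one_le_div₀ hδ2]
    exact pow_le_pow_left' hm 2
  have h2 : v ((2 * (x₁ * x₂ + a₄) * (x₁ + x₂) + b₂ * x₁ * x₂) / (x₁ - x₂) ^ 2)
      ≤ v ((x₁ * x₂ - a₄) ^ 2 / (x₁ - x₂) ^ 2) := by
    rw [hS, hT, div_le_div_iff_of_pos_right hδ2]
    exact hn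
  exact ⟨Fermat.Agent.S05.URD.one_le_left v H.hsum H.hprod h1 h2,
    Fermat.Agent.S05.URD.one_le_left v ((add_comm r₂ r₁).trans H.hsum)
      ((mul_comm r₂ r₁).trans H.hprod) h1 h2⟩

end D1

theorem ur_D1 {K : Type*} [Field K] {Γ₀ : Type*} [LinearOrderedCommGroupWithZero Γ₀]
    {v : Valuation K Γ₀} {b₂ a₄ x₁ x₂ r₁ r₂ : K}
    (H : URHyp2 v b₂ a₄ x₁ x₂ r₁ r₂) (heq : v x₁ = v x₂) (h1 : 1 < v x₁) :
    URConcl (v a₄) (v x₁) (v x₂) (v r₁) (v r₂) := by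
  have h12 : v (x₁ * x₂) = v x₁ * v x₁ := by rw [map_mul, ← heq]
  have haa : 1 ≤ v x₁ * v x₁ := Right.one_le_mul h1.le h1.le
  have hlt : v a₄ < v (x₁ * x₂) := by
    rw [h12]
    exact H.ha₄.trans_le haa
  have hm : v (x₁ * x₂ - a₄) = v x₁ * v x₁ := by
    rw [Valuation.map_sub_eq_of_lt_left v hlt, h12]
  have hδ : v (x₁ - x₂) ≤ v x₁ := Valuation.map_sub_le v le_rfl heq.ge
  have hσ : v (x₁ + x₂) ≤ v x₁ := Valuation.map_add_le v le_rfl heq.ge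
  have hc : v (x₁ * x₂ + a₄) ≤ v x₁ * v x₁ :=
    Valuation.map_add_le v h12.le (hlt.le.trans h12.le)
  have hm' : v (x₁ - x₂) ≤ v (x₁ * x₂ - a₄) := by
    rw [hm]
    exact hδ.trans (le_mul_of_one_le_left' h1.le)
  have hn : v (2 * (x₁ * x₂ + a₄) * (x₁ + x₂) + b₂ * x₁ * x₂) ≤ v (x₁ * x₂ - a₄) ^ 2 := by
    rw [hm, sq]
    apply Valuation.map_add_le
    · calc v (2 * (x₁ * x₂ + a₄) * (x₁ + x₂))
          ≤ v (x₁ * x₂ + a₄) * v (x₁ + x₂) := XCore.val_T1_le v a₄ x₁ x₂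
        _ ≤ (v x₁ * v x₁) * v x₁ := mul_le_mul' hc hσ
        _ ≤ (v x₁ * v x₁) * (v x₁ * v x₁) :=
          mul_le_mul' le_rfl (le_mul_of_one_le_left' h1.le)
    · rw [XCore.val_T2 H, ← heq]
      exact le_mul_of_one_le_left' haa
  have hboth := D1.one_le_both H hm' hn
  exact Fermat.Agent.S05.URD.concl_one H.ha₄.le h1.le (heq ▸ h1.le) hboth.1 hboth.2

end Fermat.Agent.S13.TwoAdic.XCoreT
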