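import Mathlib
import Fermat.Agent.S13.TwoAdic.XCore.Basic
import Fermat.Agent.S05.Core.URA

/-!
# S13 / TwoAdic / XCoreT: independent proof of `ur_A1` (doubling of the leaf `XCore.ur_A1` of
`Fermat/Agent/S13/TwoAdic/XCore/URA.lean`; statement identical, binders explicit).
Owner: one worker of helper1's team.  Auxiliary declarations: namespace `XCoreT.A1` only.
-/

set_option autoImplicit false

namespace Fermat.Agent.S13.TwoAdic.XCoreT

open Fermat.Agent.S05 (fold qt clip URConcl newton_two_roots)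

namespace A1

variable {K : Type*} [Field K] {Γ₀ : Type*} [LinearOrderedCommGroupWithZero Γ₀]
variable {v : Valuation K Γ₀} {b₂ a₄ x₁ x₂ r₁ r₂ : K}

theorem prod_pos (hA : v a₄ < v x₁ * v x₂) : 0 < v x₁ * v x₂ := lt_of_le_of_lt zero_le hA

theorem a_pos (hA : v a₄ < v x₁ * v x₂) : 0 < v x₁ :=
  zero_lt_iff.mpr (left_ne_zero_of_mul (prod_pos hA).ne')

theorem b_pos (hA : v a₄ < v x₁ * v x₂) : 0 < v x₂ :=
  zero_lt_iff.mpr (right_ne_zero_of_mul (prod_pos hA).ne')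

theorem val_sub (hlt : v x₂ < v x₁) : v (x₁ - x₂) = v x₁ :=
  Valuation.map_sub_eq_of_lt_left v hlt

theorem val_add (hlt : v x₂ < v x₁) : v (x₁ + x₂) = v x₁ :=
  Valuation.map_add_eq_of_lt_left v hlt

theorem val_prod_sub (hA : v a₄ < v x₁ * v x₂) :
    v (x₁ * x₂ - a₄) = v x₁ * v x₂ := by
  have h : v a₄ < v (x₁ * x₂) := by
    rw [map_mul]
    exact hA
  rw [Valuation.map_sub_eq_of_lt_left v h, map_mul]

theorem val_prod_add (hA : v a₄ < v x₁ * v x₂) :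
    v (x₁ * x₂ + a₄) = v x₁ * v x₂ := by
  have h : v a₄ < v (x₁ * x₂) := by
    rw [map_mul]
    exact hA
  rw [Valuation.map_add_eq_of_lt_left v h, map_mul]

/-- `v Π = (v x₂)²`. -/
theorem val_Pi (hlt : v x₂ < v x₁) (hA : v a₄ < v x₁ * v x₂) :
    v ((x₁ * x₂ - a₄) ^ 2 / (x₁ - x₂) ^ 2) = v x₂ ^ 2 := by
  rw [map_div₀, map_pow, map_pow, val_prod_sub hA, val_sub hlt, mul_pow, mul_comm,
    mul_div_assoc, div_self (pow_ne_zero 2 (a_pos hA).ne'), mul_one]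

/-- In case A1 the numerator of `S` has valuation `v x₁ * v x₂`. -/
theorem val_num (H : URHyp2 v b₂ a₄ x₁ x₂ r₁ r₂) (hlt : v x₂ < v x₁)
    (hA : v a₄ < v x₁ * v x₂) (h1 : v x₁ < 1) :
    v (2 * (x₁ * x₂ + a₄) * (x₁ + x₂) + b₂ * x₁ * x₂) = v x₁ * v x₂ := by
  have h : v (2 * (x₁ * x₂ + a₄) * (x₁ + x₂)) < v (b₂ * x₁ * x₂) := by
    rw [XCore.val_T2 H]
    refine lt_of_le_of_lt (XCore.val_T1_le v a₄ x₁ x₂) ?_
    rw [val_prod_add hA, val_add hlt]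
    exact mul_lt_of_lt_one_right (prod_pos hA) h1
  rw [Valuation.map_add_eq_of_lt_right v h, XCore.val_T2 H]

/-- In case A1, `v S = v x₂ / v x₁`. -/
theorem val_S (H : URHyp2 v b₂ a₄ x₁ x₂ r₁ r₂) (hlt : v x₂ < v x₁)
    (hA : v a₄ < v x₁ * v x₂) (h1 : v x₁ < 1) :
    v (r₁ + r₂) = v x₂ / v x₁ := by
  have ha := a_pos hA
  rw [H.hsum, map_div₀, map_pow, val_sub hlt, val_num H hlt hA h1, pow_two,
    mul_comm (v x₁) (v x₂), mul_div_mul_right _ _ ha.ne']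

/-- In case A1 the valuations of the two roots are `v x₂ / v x₁` and `v x₁ * v x₂`. -/
theorem roots (H : URHyp2 v b₂ a₄ x₁ x₂ r₁ r₂) (hlt : v x₂ < v x₁)
    (hA : v a₄ < v x₁ * v x₂) (h1 : v x₁ < 1) :
    (v r₁ = v x₂ / v x₁ ∧ v r₂ = v x₁ * v x₂) ∨ (v r₂ = v x₂ / v x₁ ∧ v r₁ = v x₁ * v x₂) := by
  have ha := a_pos hA
  have hb := b_pos hA
  have hS := val_S H hlt hA h1
  have hP : v (r₁ * r₂) = v x₂ ^ 2 := by rw [H.hprod, val_Pi hlt hA]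
  have hq : v x₂ / v x₁ ≠ 0 := div_ne_zero hb.ne' ha.ne'
  have hlt' : v (r₁ * r₂) < v (r₁ + r₂) ^ 2 := by
    rw [hP, hS]
    apply pow_lt_pow_left₀ _ zero_le two_ne_zero
    rw [lt_div_iff₀ ha]
    exact mul_lt_of_lt_one_right hb h1
  have key : v x₁ * v x₂ * (v x₂ / v x₁) = v x₂ ^ 2 := by
    rw [mul_comm (v x₁) (v x₂), mul_assoc, mul_div_cancel₀ _ ha.ne', pow_two]
  rcases (newton_two_roots v rfl rfl).1 hlt' with ⟨h, h'⟩ | ⟨h, h'⟩
  · left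
    refine ⟨h.trans hS, ?_⟩
    rw [hS, hP, ← key] at h'
    exact mul_right_cancel₀ hq h'
  · right
    refine ⟨h.trans hS, ?_⟩
    rw [hS, hP, ← key] at h'
    exact mul_right_cancel₀ hq h'

end A1

theorem ur_A1 {K : Type*} [Field K] {Γ₀ : Type*} [LinearOrderedCommGroupWithZero Γ₀]
    {v : Valuation K Γ₀} {b₂ a₄ x₁ x₂ r₁ r₂ : K}
    (H : URHyp2 v b₂ a₄ x₁ x₂ r₁ r₂) (hlt : v x₂ < v x₁) (hA : v a₄ < v x₁ * v x₂)
    (h1 : v x₁ < 1) : URConcl (v a₄) (v x₁) (v x₂) (v r₁) (v r₂) := by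
  have ha := A1.a_pos hA
  have hb := A1.b_pos hA
  have hb1 : v x₂ < 1 := hlt.trans h1
  have hab_b : v x₁ * v x₂ < v x₂ := mul_lt_of_lt_one_left hb h1
  have hab_a : v x₁ * v x₂ < v x₁ := mul_lt_of_lt_one_right ha hb1
  have hb_q : v x₂ ≤ v x₂ / v x₁ := by
    rw [le_div_iff₀ ha]
    exact mul_le_of_le_one_right zero_le h1.le
  have hq1 : v x₂ / v x₁ ≤ 1 := (div_le_one₀ ha).mpr hlt.le
  have hs : clip (v a₄) (v x₁) = v x₁ :=
    Fermat.Agent.S05.URA.clip_eq_self (hA.trans hab_a).le h1.le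
  have ht : clip (v a₄) (v x₂) = v x₂ :=
    Fermat.Agent.S05.URA.clip_eq_self (hA.trans hab_b).le hb1.le
  have hcq : clip (v a₄) (v x₂ / v x₁) = v x₂ / v x₁ :=
    Fermat.Agent.S05.URA.clip_eq_self ((hA.trans hab_b).le.trans hb_q) hq1
  have hcp : clip (v a₄) (v x₁ * v x₂) = v x₁ * v x₂ :=
    Fermat.Agent.S05.URA.clip_eq_self hA.le (hab_a.trans h1).le
  have hfold : fold (v a₄) (v x₁ * v x₂) = v x₁ * v x₂ :=
    Fermat.Agent.S05.URA.fold_eq_self hA.le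
  have hqt : qt (v x₁) (v x₂) = v x₂ / v x₁ := Fermat.Agent.S05.URA.qt_eq_div hb hlt.le
  rcases A1.roots H hlt hA h1 with ⟨h, h'⟩ | ⟨h, h'⟩
  · right
    rw [h, h', hs, ht, hcq, hcp, hfold, hqt]
    exact ⟨rfl, rfl⟩
  · left
    rw [h, h', hs, ht, hcq, hcp, hfold, hqt]
    exact ⟨rfl, rfl⟩

end Fermat.Agent.S13.TwoAdic.XCoreT
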