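import Mathlib
import Fermat.Agent.S13.TwoAdic.XCore.Basic

/-!
# S13 / TwoAdic / XCoreT: independent proof of `ur_A2` (doubling of the leaf `XCore.ur_A2` of
`Fermat/Agent/S13/TwoAdic/XCore/URA.lean`; statement identical, binders explicit).
Owner: one worker of helper1's team.  Auxiliary declarations: namespace `XCoreT.A2` only.
-/

set_option autoImplicit false

namespace Fermat.Agent.S13.TwoAdic.XCoreT

open Fermat.Agent.S05 (fold qt clip URConcl newton_two_roots)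

namespace A2

open Fermat.Agent.S13.TwoAdic.XCore

variable {K : Type*} [Field K] {Γ₀ : Type*} [LinearOrderedCommGroupWithZero Γ₀]
variable {v : Valuation K Γ₀} {b₂ a₄ x₁ x₂ r₁ r₂ : K}

/-! ### Elementary facts on `clip`, `fold`, `qt` -/

theorem clip_of_one_le {ε u : Γ₀} (hε : ε ≤ 1) (h : 1 ≤ u) : clip ε u = 1 := by
  unfold clip
  rw [min_eq_left h, max_eq_right hε]

theorem le_clip (ε u : Γ₀) : ε ≤ clip ε u := le_max_left _ _

theorem clip_le_one {ε : Γ₀} (hε : ε ≤ 1) (u : Γ₀) : clip ε u ≤ 1 :=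
  max_le hε (min_le_left _ _)

theorem fold_eq_self {ε u : Γ₀} (h : ε ≤ u) : fold ε u = u := if_pos h

/-- `qt s t = t / s` for `0 < t ≤ s`. -/
theorem qt_eq_div {s t : Γ₀} (ht : 0 < t) (h : t ≤ s) : qt s t = t / s := by
  unfold qt
  apply min_eq_right
  exact ((div_le_one₀ (ht.trans_le h)).mpr h).trans ((one_le_div₀ ht).mpr h)

/-- `qt 1 t = t` for `0 < t ≤ 1`. -/
theorem qt_one_left {t : Γ₀} (ht : 0 < t) (h : t ≤ 1) : qt 1 t = t := by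
  rw [qt_eq_div ht h, div_one]

/-! ### Valuations of the ingredients (family A: `v x₂ < v x₁`, `v a₄ < v x₁ * v x₂`) -/

theorem prod_pos (hA : v a₄ < v x₁ * v x₂) : 0 < v x₁ * v x₂ := lt_of_le_of_lt zero_le hA

theorem a_pos (hA : v a₄ < v x₁ * v x₂) : 0 < v x₁ :=
  zero_lt_iff.mpr (left_ne_zero_of_mul (prod_pos hA).ne')

theorem val_sub (hlt : v x₂ < v x₁) : v (x₁ - x₂) = v x₁ :=
  Valuation.map_sub_eq_of_lt_left v hlt

theorem val_add (hlt : v x₂ < v x₁) : v (x₁ + x₂) = v x₁ :=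
  Valuation.map_add_eq_of_lt_left v hlt

theorem val_prod_sub (hA : v a₄ < v x₁ * v x₂) : v (x₁ * x₂ - a₄) = v x₁ * v x₂ := by
  have h : v a₄ < v (x₁ * x₂) := by
    rw [map_mul]
    exact hA
  rw [Valuation.map_sub_eq_of_lt_left v h, map_mul]

theorem val_prod_add (hA : v a₄ < v x₁ * v x₂) : v (x₁ * x₂ + a₄) = v x₁ * v x₂ := by
  have h : v a₄ < v (x₁ * x₂) := by
    rw [map_mul]
    exact hA
  rw [Valuation.map_add_eq_of_lt_left v h, map_mul]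

/-- `v Π = (v x₂)²`. -/
theorem val_Pi (hlt : v x₂ < v x₁) (hA : v a₄ < v x₁ * v x₂) :
    v ((x₁ * x₂ - a₄) ^ 2 / (x₁ - x₂) ^ 2) = v x₂ ^ 2 := by
  rw [map_div₀, map_pow, map_pow, val_prod_sub hA, val_sub hlt, mul_pow, mul_comm,
    mul_div_assoc, div_self (pow_ne_zero 2 (a_pos hA).ne'), mul_one]

/-- For `1 ≤ v x₁` the numerator of `S` has valuation at most `v x₂ * (v x₁)²`. -/
theorem val_num_le (H : URHyp2 v b₂ a₄ x₁ x₂ r₁ r₂) (hlt : v x₂ < v x₁)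
    (hA : v a₄ < v x₁ * v x₂) (h1 : 1 ≤ v x₁) :
    v (2 * (x₁ * x₂ + a₄) * (x₁ + x₂) + b₂ * x₁ * x₂) ≤ v x₂ * v x₁ ^ 2 := by
  have e : v x₂ * v x₁ ^ 2 = v x₁ * v x₂ * v x₁ := by
    rw [pow_two, mul_comm (v x₁) (v x₂), mul_assoc]
  apply Valuation.map_add_le
  · refine (val_T1_le v a₄ x₁ x₂).trans ?_
    rw [val_prod_add hA, val_add hlt, e]
  · rw [val_T2 H, e]
    exact le_mul_of_one_le_right zero_le h1

/-- For `1 ≤ v x₁`, `v S ≤ v x₂`. -/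
theorem val_S_le (H : URHyp2 v b₂ a₄ x₁ x₂ r₁ r₂) (hlt : v x₂ < v x₁)
    (hA : v a₄ < v x₁ * v x₂) (h1 : 1 ≤ v x₁) :
    v (r₁ + r₂) ≤ v x₂ := by
  have ha := a_pos hA
  rw [H.hsum, map_div₀, map_pow, val_sub hlt, div_le_iff₀ (pow_pos ha 2)]
  exact val_num_le H hlt hA h1

/-- For `1 ≤ v x₁` both roots have valuation `v x₂`. -/
theorem roots_of_one_le (H : URHyp2 v b₂ a₄ x₁ x₂ r₁ r₂) (hlt : v x₂ < v x₁)
    (hA : v a₄ < v x₁ * v x₂) (h1 : 1 ≤ v x₁) :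
    v r₁ = v x₂ ∧ v r₂ = v x₂ := by
  have hP : v (r₁ * r₂) = v x₂ ^ 2 := by rw [H.hprod, val_Pi hlt hA]
  have hle : v (r₁ + r₂) ^ 2 ≤ v (r₁ * r₂) := by
    rw [hP]
    exact pow_le_pow_left₀ zero_le (val_S_le H hlt hA h1) 2
  obtain ⟨h, h'⟩ := (newton_two_roots v rfl rfl).2 hle
  have h1' : v r₁ = v x₂ := by
    rw [hP] at h'
    exact (pow_left_inj₀ zero_le zero_le two_ne_zero).mp h'
  exact ⟨h1', h.symm.trans h1'⟩

/-- The conclusion of the unordered rule when `1 ≤ v x₁`. -/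
theorem concl_of_one_le (H : URHyp2 v b₂ a₄ x₁ x₂ r₁ r₂) (hlt : v x₂ < v x₁)
    (hA : v a₄ < v x₁ * v x₂) (h1 : 1 ≤ v x₁) :
    URConcl (v a₄) (v x₁) (v x₂) (v r₁) (v r₂) := by
  obtain ⟨hr₁, hr₂⟩ := roots_of_one_le H hlt hA h1
  have hε := eps_pos H
  have hs : clip (v a₄) (v x₁) = 1 := clip_of_one_le H.ha₄.le h1
  have ht0 : 0 < clip (v a₄) (v x₂) := hε.trans_le (le_clip _ _)
  have ht1 : clip (v a₄) (v x₂) ≤ 1 := clip_le_one H.ha₄.le _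
  left
  rw [hr₁, hr₂, hs, one_mul, fold_eq_self (le_clip _ _), qt_one_left ht0 ht1]
  exact ⟨rfl, rfl⟩

end A2

theorem ur_A2 {K : Type*} [Field K] {Γ₀ : Type*} [LinearOrderedCommGroupWithZero Γ₀]
    {v : Valuation K Γ₀} {b₂ a₄ x₁ x₂ r₁ r₂ : K}
    (H : URHyp2 v b₂ a₄ x₁ x₂ r₁ r₂) (hlt : v x₂ < v x₁) (hA : v a₄ < v x₁ * v x₂)
    (h1 : v x₁ = 1) : URConcl (v a₄) (v x₁) (v x₂) (v r₁) (v r₂) :=
  A2.concl_of_one_le H hlt hA h1.ge

end Fermat.Agent.S13.TwoAdic.XCoreT
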