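import Mathlib
import Fermat.Agent.S13.TwoAdic.XCore.Basic
import Fermat.Agent.S05.Core.URA

/-!
# S13 / TwoAdic / XCoreT: independent proof of `ur_A3` (doubling of the leaf `XCore.ur_A3` of
`Fermat/Agent/S13/TwoAdic/XCore/URA.lean`; statement identical, binders explicit).
Owner: one worker of helper1's team.  Auxiliary declarations: namespace `XCoreT.A3` only.
-/

set_option autoImplicit false

namespace Fermat.Agent.S13.TwoAdic.XCoreT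

open Fermat.Agent.S05 (fold qt clip URConcl newton_two_roots)

namespace A3

variable {K : Type*} [Field K] {Γ₀ : Type*} [LinearOrderedCommGroupWithZero Γ₀]
variable {v : Valuation K Γ₀} {b₂ a₄ x₁ x₂ r₁ r₂ : K}

theorem prod_pos (hA : v a₄ < v x₁ * v x₂) : 0 < v x₁ * v x₂ := lt_of_le_of_lt zero_le hA

theorem a_pos (hA : v a₄ < v x₁ * v x₂) : 0 < v x₁ :=
  zero_lt_iff.mpr (left_ne_zero_of_mul (prod_pos hA).ne')

theorem val_sub (hlt : v x₂ < v x₁) : v (x₁ - x₂) = v x₁ :=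
  Valuation.map_sub_eq_of_lt_left v hlt

theorem val_add (hlt : v x₂ < v x₁) : v (x₁ + x₂) = v x₁ :=
  Valuation.map_add_eq_of_lt_left v hlt

theorem val_prod_sub (hA : v a₄ < v x₁ * v x₂) : v (x₁ * x₂ - a₄) = v x₁ * v x₂ := by
  have h : v a₄ < v (x₁ * x₂) := by
    rw [map_mul]
    exact hA
  rw [Valuation.map_sub_eq_of_lt_left v h, map_mul]

theorem val_prod_add (hA : v a₄ < v x₁ * v x₂) : v (x₁ * x₂ + a₄) = v x₁ * v x₂ := by
  have h : v a₄ < v (x₁ * x₂) := by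
    rw [map_mul]
    exact hA
  rw [Valuation.map_add_eq_of_lt_left v h, map_mul]

/-- `v Π = (v x₂)²`. -/
theorem val_Pi (hlt : v x₂ < v x₁) (hA : v a₄ < v x₁ * v x₂) :
    v ((x₁ * x₂ - a₄) ^ 2 / (x₁ - x₂) ^ 2) = v x₂ ^ 2 := by
  rw [map_div₀, map_pow, map_pow, val_prod_sub hA, val_sub hlt, mul_pow, mul_comm,
    mul_div_assoc, div_self (pow_ne_zero 2 (a_pos hA).ne'), mul_one]

/-- For `1 ≤ v x₁` the numerator of `S` has valuation at most `v x₂ * (v x₁)²`. -/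
theorem val_num_le (H : URHyp2 v b₂ a₄ x₁ x₂ r₁ r₂) (hlt : v x₂ < v x₁)
    (hA : v a₄ < v x₁ * v x₂) (h1 : 1 ≤ v x₁) :
    v (2 * (x₁ * x₂ + a₄) * (x₁ + x₂) + b₂ * x₁ * x₂) ≤ v x₂ * v x₁ ^ 2 := by
  have e : v x₂ * v x₁ ^ 2 = v x₁ * v x₂ * v x₁ := by
    rw [pow_two, mul_left_comm, ← mul_assoc]
  apply Valuation.map_add_le
  · refine (XCore.val_T1_le v a₄ x₁ x₂).trans ?_
    rw [val_prod_add hA, val_add hlt, e]
  · rw [XCore.val_T2 H, e]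
    exact le_mul_of_one_le_right zero_le h1

/-- For `1 ≤ v x₁`, `v S ≤ v x₂`. -/
theorem val_S_le (H : URHyp2 v b₂ a₄ x₁ x₂ r₁ r₂) (hlt : v x₂ < v x₁)
    (hA : v a₄ < v x₁ * v x₂) (h1 : 1 ≤ v x₁) :
    v (r₁ + r₂) ≤ v x₂ := by
  have ha := a_pos (v := v) hA
  rw [H.hsum, map_div₀, map_pow, val_sub hlt, div_le_iff₀ (pow_pos ha 2)]
  exact val_num_le H hlt hA h1

/-- For `1 ≤ v x₁` both roots have valuation `v x₂`. -/
theorem roots_of_one_le (H : URHyp2 v b₂ a₄ x₁ x₂ r₁ r₂) (hlt : v x₂ < v x₁)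
    (hA : v a₄ < v x₁ * v x₂) (h1 : 1 ≤ v x₁) :
    v r₁ = v x₂ ∧ v r₂ = v x₂ := by
  have hP : v (r₁ * r₂) = v x₂ ^ 2 := by rw [H.hprod, val_Pi hlt hA]
  have hle : v (r₁ + r₂) ^ 2 ≤ v (r₁ * r₂) := by
    rw [hP]
    exact pow_le_pow_left₀ zero_le (val_S_le H hlt hA h1) 2
  obtain ⟨h, h'⟩ := (newton_two_roots v rfl rfl).2 hle
  have h1' : v r₁ = v x₂ := by
    rw [hP] at h'
    exact (pow_left_inj₀ zero_le zero_le two_ne_zero).mp h'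
  exact ⟨h1', h.symm.trans h1'⟩

/-- The conclusion of the unordered rule when `1 ≤ v x₁`. -/
theorem concl_of_one_le (H : URHyp2 v b₂ a₄ x₁ x₂ r₁ r₂) (hlt : v x₂ < v x₁)
    (hA : v a₄ < v x₁ * v x₂) (h1 : 1 ≤ v x₁) :
    URConcl (v a₄) (v x₁) (v x₂) (v r₁) (v r₂) := by
  obtain ⟨hr₁, hr₂⟩ := roots_of_one_le H hlt hA h1
  have hε := XCore.eps_pos H
  have hs : clip (v a₄) (v x₁) = 1 := Fermat.Agent.S05.URA.clip_of_one_le H.ha₄.le h1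
  have ht0 : 0 < clip (v a₄) (v x₂) := hε.trans_le (Fermat.Agent.S05.URA.le_clip _ _)
  have ht1 : clip (v a₄) (v x₂) ≤ 1 := Fermat.Agent.S05.URA.clip_le_one H.ha₄.le _
  left
  rw [hr₁, hr₂, hs, one_mul, Fermat.Agent.S05.URA.fold_eq_self (Fermat.Agent.S05.URA.le_clip _ _),
    Fermat.Agent.S05.URA.qt_one_left ht0 ht1]
  exact ⟨rfl, rfl⟩

end A3

theorem ur_A3 {K : Type*} [Field K] {Γ₀ : Type*} [LinearOrderedCommGroupWithZero Γ₀]
    {v : Valuation K Γ₀} {b₂ a₄ x₁ x₂ r₁ r₂ : K}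
    (H : URHyp2 v b₂ a₄ x₁ x₂ r₁ r₂) (hlt : v x₂ < v x₁) (hA : v a₄ < v x₁ * v x₂)
    (h1 : 1 < v x₁) : URConcl (v a₄) (v x₁) (v x₂) (v r₁) (v r₂) :=
  A3.concl_of_one_le H hlt hA h1.le

end Fermat.Agent.S13.TwoAdic.XCoreT
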