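import Mathlib
import Fermat.Agent.S13.TwoAdic.XCore.Basic
import Fermat.Agent.S05.Core.URC

/-!
# S13 / TwoAdic / XCoreT: independent proof of `ur_C1` (doubling of the leaf `XCore.ur_C1` of
`Fermat/Agent/S13/TwoAdic/XCore/URC.lean`; statement identical, binders explicit).
Owner: one worker of helper1's team.  Auxiliary declarations: namespace `XCoreT.C1` only.
-/

set_option autoImplicit false

namespace Fermat.Agent.S13.TwoAdic.XCoreT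

open Fermat.Agent.S05 (fold qt clip URConcl newton_two_roots)

namespace C1

variable {K : Type*} [Field K] {Γ₀ : Type*} [LinearOrderedCommGroupWithZero Γ₀]
variable {v : Valuation K Γ₀} {b₂ a₄ x₁ x₂ r₁ r₂ : K}

/-- `v (x₁ x₂ + a₄) ≤ v a₄` in family C. -/
theorem val_plus_le (hC : v x₁ * v x₂ = v a₄) : v (x₁ * x₂ + a₄) ≤ v a₄ := by
  refine Valuation.map_add_le v ?_ le_rfl
  rw [map_mul, hC]

/-- `v (x₁ x₂ - a₄) ≤ v a₄` in family C. -/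
theorem val_minus_le (hC : v x₁ * v x₂ = v a₄) : v (x₁ * x₂ - a₄) ≤ v a₄ := by
  refine Valuation.map_sub_le v ?_ le_rfl
  rw [map_mul, hC]

/-- `v (r₁ r₂) ≤ (v a₄)² / (v x₁)²` in family C. -/
theorem val_prod_le (H : URHyp2 v b₂ a₄ x₁ x₂ r₁ r₂) (hlt : v x₂ < v x₁)
    (hC : v x₁ * v x₂ = v a₄) : v (r₁ * r₂) ≤ v a₄ ^ 2 / v x₁ ^ 2 := by
  have hD : v (x₁ - x₂) = v x₁ := Valuation.map_sub_eq_of_lt_left v hlt
  have hB : v (x₁ * x₂ - a₄) ≤ v a₄ := val_minus_le hC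
  rw [H.hprod, map_div₀, map_pow, map_pow, hD]
  gcongr
  exact zero_le

/-- `v (r₁ + r₂) = v a₄ / (v x₁)²` in case C1. -/
theorem val_sum (H : URHyp2 v b₂ a₄ x₁ x₂ r₁ r₂) (hlt : v x₂ < v x₁)
    (hC : v x₁ * v x₂ = v a₄) (h1 : v x₁ < 1) : v (r₁ + r₂) = v a₄ / v x₁ ^ 2 := by
  have hD : v (x₁ - x₂) = v x₁ := Valuation.map_sub_eq_of_lt_left v hlt
  have hA : v (x₁ + x₂) = v x₁ := Valuation.map_add_eq_of_lt_left v hlt
  have hT2 : v (b₂ * x₁ * x₂) = v a₄ := by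
    rw [XCore.val_T2 H, hC]
  have hT1 : v (2 * (x₁ * x₂ + a₄) * (x₁ + x₂)) < v (b₂ * x₁ * x₂) := by
    rw [hT2]
    calc v (2 * (x₁ * x₂ + a₄) * (x₁ + x₂))
        ≤ v (x₁ * x₂ + a₄) * v (x₁ + x₂) := XCore.val_T1_le v a₄ x₁ x₂
      _ ≤ v a₄ * v x₁ := by
          rw [hA]
          exact mul_le_mul' (val_plus_le hC) le_rfl
      _ < v a₄ := mul_lt_of_lt_one_right (XCore.eps_pos H) h1
  have hnum : v (2 * (x₁ * x₂ + a₄) * (x₁ + x₂) + b₂ * x₁ * x₂) = v a₄ := by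
    rw [Valuation.map_add_eq_of_lt_right v hT1, hT2]
  rw [H.hsum, map_div₀, map_pow, hnum, hD]

end C1

theorem ur_C1 {K : Type*} [Field K] {Γ₀ : Type*} [LinearOrderedCommGroupWithZero Γ₀]
    {v : Valuation K Γ₀} {b₂ a₄ x₁ x₂ r₁ r₂ : K}
    (H : URHyp2 v b₂ a₄ x₁ x₂ r₁ r₂) (hlt : v x₂ < v x₁) (hC : v x₁ * v x₂ = v a₄)
    (h1 : v x₁ < 1) : URConcl (v a₄) (v x₁) (v x₂) (v r₁) (v r₂) := by
  exact Fermat.Agent.S05.URC.concl_C1 ((Valuation.ne_zero_iff v).mpr H.ha₄0) hC hlt h1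
    (C1.val_sum H hlt hC h1) (C1.val_prod_le H hlt hC)
    (newton_two_roots v rfl rfl).1

end Fermat.Agent.S13.TwoAdic.XCoreT
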