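import Mathlib
import Fermat.Agent.S13.TwoAdic.XCore.Basic
import Fermat.Agent.S05.Core.URD3

/-!
# S13 / TwoAdic / XCoreT: independent proof of `ur_D3a` (doubling of the leaf `XCore.ur_D3a` of
`Fermat/Agent/S13/TwoAdic/XCore/URD3.lean`; statement identical, binders explicit).
Owner: one worker of helper1's team.  Auxiliary declarations: namespace `XCoreT.D3a` only.
-/

set_option autoImplicit false

namespace Fermat.Agent.S13.TwoAdic.XCoreT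

open Fermat.Agent.S05 (fold qt clip URConcl newton_two_roots)

namespace D3a

variable {K : Type*} [Field K] {Γ₀ : Type*} [LinearOrderedCommGroupWithZero Γ₀]
variable {v : Valuation K Γ₀} {b₂ a₄ x₁ x₂ r₁ r₂ : K}

theorem vx₁_pos (hε : v a₄ < v x₁) : 0 < v x₁ := lt_of_le_of_lt zero_le hε

theorem vsub_pos (H : URHyp2 v b₂ a₄ x₁ x₂ r₁ r₂) : 0 < v (x₁ - x₂) :=
  v.pos_iff.2 (sub_ne_zero.2 H.hne)

theorem vsub_le (heq : v x₁ = v x₂) : v (x₁ - x₂) ≤ v x₁ :=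
  v.map_sub_le le_rfl heq.ge

theorem v_xx (heq : v x₁ = v x₂) : v (x₁ * x₂) = v x₁ ^ 2 := by
  rw [map_mul, ← heq, pow_two]

/-- The dominant term of the numerator of `S`. -/
theorem v_dom (H : URHyp2 v b₂ a₄ x₁ x₂ r₁ r₂) (heq : v x₁ = v x₂) :
    v (b₂ * x₁ * x₂) = v x₁ ^ 2 := by
  rw [XCore.val_T2 H, ← heq, pow_two]

/-- The other term of the numerator of `S` is strictly smaller. -/
theorem v_small (heq : v x₁ = v x₂) (h1 : v x₁ < 1) (hε : v a₄ < v x₁) :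
    v (2 * (x₁ * x₂ + a₄) * (x₁ + x₂)) < v x₁ ^ 2 := by
  have h0 : 0 < v x₁ := vx₁_pos hε
  have hA : v (x₁ + x₂) ≤ v x₁ := v.map_add_le le_rfl heq.ge
  have hB : v (x₁ * x₂ + a₄) < v x₁ := by
    refine v.map_add_lt ?_ hε
    rw [v_xx heq]
    exact Fermat.Agent.S05.URD3.sq_lt_self h0 h1
  refine lt_of_le_of_lt (XCore.val_T1_le v a₄ x₁ x₂) ?_
  rw [pow_two]
  exact lt_of_le_of_lt (mul_le_mul' le_rfl hA) (mul_lt_mul_of_pos_right hB h0)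

/-- The numerator of `S` has valuation exactly `(v x₁)²`. -/
theorem v_num (H : URHyp2 v b₂ a₄ x₁ x₂ r₁ r₂) (heq : v x₁ = v x₂) (h1 : v x₁ < 1)
    (hε : v a₄ < v x₁) :
    v (2 * (x₁ * x₂ + a₄) * (x₁ + x₂) + b₂ * x₁ * x₂) = v x₁ ^ 2 := by
  rw [Valuation.map_add_eq_of_lt_right v (by rw [v_dom H heq]; exact v_small heq h1 hε),
    v_dom H heq]

/-- `v S = (v x₁)² / (v (x₁ - x₂))²`. -/
theorem v_sum (H : URHyp2 v b₂ a₄ x₁ x₂ r₁ r₂) (heq : v x₁ = v x₂) (h1 : v x₁ < 1)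
    (hε : v a₄ < v x₁) :
    v ((2 * (x₁ * x₂ + a₄) * (x₁ + x₂) + b₂ * x₁ * x₂) / (x₁ - x₂) ^ 2) =
      v x₁ ^ 2 / v (x₁ - x₂) ^ 2 := by
  rw [map_div₀, v_num H heq h1 hε, map_pow]

/-- `v Π = (v (x₁ x₂ - a₄))² / (v (x₁ - x₂))²`. -/
theorem v_prod : v ((x₁ * x₂ - a₄) ^ 2 / (x₁ - x₂) ^ 2) =
    v (x₁ * x₂ - a₄) ^ 2 / v (x₁ - x₂) ^ 2 := by
  rw [map_div₀, map_pow, map_pow]

/-- `v (x₁ x₂ - a₄) < v x₁`. -/
theorem v_tau_lt (heq : v x₁ = v x₂) (h1 : v x₁ < 1) (hε : v a₄ < v x₁) :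
    v (x₁ * x₂ - a₄) < v x₁ := by
  refine v.map_sub_lt ?_ hε
  rw [v_xx heq]
  exact Fermat.Agent.S05.URD3.sq_lt_self (vx₁_pos hε) h1

/-- `1 ≤ v S`. -/
theorem one_le_v_sum (H : URHyp2 v b₂ a₄ x₁ x₂ r₁ r₂) (heq : v x₁ = v x₂) :
    1 ≤ v x₁ ^ 2 / v (x₁ - x₂) ^ 2 := by
  rw [one_le_div₀ (pow_pos (vsub_pos H) 2)]
  exact pow_le_pow_left₀ zero_le (vsub_le heq) 2

/-- The Newton polygon: one root has `1 ≤ v r`, the other one satisfies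
`v r * (v x₁)² = (v (x₁ x₂ - a₄))²`. -/
theorem roots (H : URHyp2 v b₂ a₄ x₁ x₂ r₁ r₂) (heq : v x₁ = v x₂) (h1 : v x₁ < 1)
    (hε : v a₄ < v x₁) :
    (1 ≤ v r₁ ∧ v r₂ * v x₁ ^ 2 = v (x₁ * x₂ - a₄) ^ 2) ∨
      (1 ≤ v r₂ ∧ v r₁ * v x₁ ^ 2 = v (x₁ * x₂ - a₄) ^ 2) := by
  have hd0 : 0 < v (x₁ - x₂) ^ 2 := pow_pos (vsub_pos H) 2
  have hS1 : 1 ≤ v x₁ ^ 2 / v (x₁ - x₂) ^ 2 := one_le_v_sum H heq
  have hlt : v ((x₁ * x₂ - a₄) ^ 2 / (x₁ - x₂) ^ 2) <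
      v ((2 * (x₁ * x₂ + a₄) * (x₁ + x₂) + b₂ * x₁ * x₂) / (x₁ - x₂) ^ 2) ^ 2 := by
    rw [v_prod, v_sum H heq h1 hε]
    refine lt_of_lt_of_le ?_ (le_self_pow₀ hS1 two_ne_zero)
    exact (div_lt_div_iff_of_pos_right hd0).mpr
      (pow_lt_pow_left₀ (v_tau_lt heq h1 hε) zero_le two_ne_zero)
  have key : ∀ x : Γ₀, x * (v x₁ ^ 2 / v (x₁ - x₂) ^ 2) =
      v (x₁ * x₂ - a₄) ^ 2 / v (x₁ - x₂) ^ 2 → x * v x₁ ^ 2 = v (x₁ * x₂ - a₄) ^ 2 := by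
    intro x hx
    rw [← mul_div_assoc] at hx
    exact (div_left_inj' hd0.ne').mp hx
  rcases (newton_two_roots v H.hsum H.hprod).1 hlt with ⟨h1', h2'⟩ | ⟨h1', h2'⟩
  · rw [v_sum H heq h1 hε] at h1' h2'
    rw [v_prod] at h2'
    exact Or.inl ⟨h1'.symm ▸ hS1, key _ h2'⟩
  · rw [v_sum H heq h1 hε] at h1' h2'
    rw [v_prod] at h2'
    exact Or.inr ⟨h1'.symm ▸ hS1, key _ h2'⟩

/-- Reduction to a statement on the small root. -/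
theorem concl (H : URHyp2 v b₂ a₄ x₁ x₂ r₁ r₂) (heq : v x₁ = v x₂) (h1 : v x₁ < 1)
    (hε : v a₄ < v x₁)
    (hx : ∀ x : Γ₀, x * v x₁ ^ 2 = v (x₁ * x₂ - a₄) ^ 2 →
      clip (v a₄) x = fold (v a₄) (v x₁ * v x₁)) :
    URConcl (v a₄) (v x₁) (v x₂) (v r₁) (v r₂) := by
  rw [← heq]
  refine Fermat.Agent.S05.URD3.concl_of hε h1 ?_
  rcases roots H heq h1 hε with ⟨h, h'⟩ | ⟨h, h'⟩
  · exact Or.inl ⟨h, hx _ h'⟩
  · exact Or.inr ⟨h, hx _ h'⟩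

end D3a

theorem ur_D3a {K : Type*} [Field K] {Γ₀ : Type*} [LinearOrderedCommGroupWithZero Γ₀]
    {v : Valuation K Γ₀} {b₂ a₄ x₁ x₂ r₁ r₂ : K}
    (H : URHyp2 v b₂ a₄ x₁ x₂ r₁ r₂) (heq : v x₁ = v x₂) (h1 : v x₁ < 1)
    (hε : v a₄ < v x₁) (h3 : v a₄ < v x₁ ^ 2) : URConcl (v a₄) (v x₁) (v x₂) (v r₁) (v r₂) := by
  have h0 : 0 < v x₁ := D3a.vx₁_pos hε
  have hτ : v (x₁ * x₂ - a₄) = v x₁ ^ 2 := by
    rw [Valuation.map_sub_eq_of_lt_left v (by rw [D3a.v_xx heq]; exact h3), D3a.v_xx heq]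
  refine D3a.concl H heq h1 hε fun x hx => ?_
  rw [hτ, pow_two (v x₁ ^ 2)] at hx
  have hx' : x = v x₁ ^ 2 := mul_right_cancel₀ (pow_pos h0 2).ne' hx
  rw [hx', ← pow_two, fold, if_pos h3.le]
  exact Fermat.Agent.S05.URD3.clip_of_mem h3.le (Fermat.Agent.S05.URD3.sq_lt_one h0 h1).le

end Fermat.Agent.S13.TwoAdic.XCoreT
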