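import Mathlib
import Fermat.Agent.S13.TwoAdic.XCore.Basic

/-!
# S13 / TwoAdic / XCoreT: independent proof of `ur_D3c` (doubling of the leaf `XCore.ur_D3c` of
`Fermat/Agent/S13/TwoAdic/XCore/URD3.lean`; statement identical, binders explicit).
Owner: one worker of helper1's team.  Auxiliary declarations: namespace `XCoreT.D3c` only.
-/

set_option autoImplicit false

namespace Fermat.Agent.S13.TwoAdic.XCoreT

open Fermat.Agent.S05 (fold qt clip URConcl newton_two_roots)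

namespace D3c

variable {K : Type*} [Field K] {Γ₀ : Type*} [LinearOrderedCommGroupWithZero Γ₀]
variable {v : Valuation K Γ₀} {b₂ a₄ x₁ x₂ r₁ r₂ : K}

/-! ### Order lemmas in `Γ₀` -/

theorem sq_lt_self {a : Γ₀} (h0 : 0 < a) (h1 : a < 1) : a ^ 2 < a := by
  rw [pow_two]
  exact mul_lt_of_lt_one_right h0 h1

theorem clip_of_one_le {ε x : Γ₀} (hε : ε ≤ 1) (hx : 1 ≤ x) : clip ε x = 1 := by
  unfold clip
  rw [min_eq_left hx, max_eq_right hε]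

theorem clip_of_mem {ε x : Γ₀} (hε : ε ≤ x) (hx : x ≤ 1) : clip ε x = x := by
  unfold clip
  rw [min_eq_right hx, max_eq_right hε]

theorem clip_of_le {ε x : Γ₀} (hε : ε ≤ 1) (hx : x ≤ ε) : clip ε x = ε := by
  unfold clip
  rw [min_eq_right (le_trans hx hε), max_eq_left hx]

theorem qt_self {a : Γ₀} (ha : a ≠ 0) : qt a a = 1 := by
  unfold qt
  rw [min_self, div_self ha]

/-- The final assembly: one root is a unit or non-integral (clipped level `1 = qt a a`), the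
other one has clipped level `fold ε (a * a)`. -/
theorem concl_of {ε a c₁ c₂ : Γ₀} (hεa : ε < a) (ha1 : a < 1)
    (h : (1 ≤ c₁ ∧ clip ε c₂ = fold ε (a * a)) ∨ (1 ≤ c₂ ∧ clip ε c₁ = fold ε (a * a))) :
    URConcl ε a a c₁ c₂ := by
  have ha0 : a ≠ 0 := (lt_of_le_of_lt zero_le hεa).ne'
  have hε1 : ε ≤ 1 := (lt_trans hεa ha1).le
  have hca : clip ε a = a := clip_of_mem hεa.le ha1.le
  unfold URConcl
  rw [hca, qt_self ha0]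
  rcases h with ⟨h1, h2⟩ | ⟨h1, h2⟩
  · exact Or.inr ⟨clip_of_one_le hε1 h1, h2⟩
  · exact Or.inl ⟨h2, clip_of_one_le hε1 h1⟩

/-! ### Valuations of the ingredients -/

theorem vx₁_pos (hε : v a₄ < v x₁) : 0 < v x₁ := lt_of_le_of_lt zero_le hε

theorem vsub_pos (H : URHyp2 v b₂ a₄ x₁ x₂ r₁ r₂) : 0 < v (x₁ - x₂) :=
  v.pos_iff.2 (sub_ne_zero.2 H.hne)

theorem vsub_le (heq : v x₁ = v x₂) : v (x₁ - x₂) ≤ v x₁ :=
  v.map_sub_le le_rfl heq.ge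

theorem v_xx (heq : v x₁ = v x₂) : v (x₁ * x₂) = v x₁ ^ 2 := by
  rw [map_mul, ← heq, pow_two]

/-- The dominant term of the numerator of `S`. -/
theorem v_dom (H : URHyp2 v b₂ a₄ x₁ x₂ r₁ r₂) (heq : v x₁ = v x₂) :
    v (b₂ * x₁ * x₂) = v x₁ ^ 2 := by
  rw [XCore.val_T2 H, ← heq, pow_two]

/-- The other term of the numerator of `S` is strictly smaller. -/
theorem v_small (heq : v x₁ = v x₂) (h1 : v x₁ < 1) (hε : v a₄ < v x₁) :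
    v (2 * (x₁ * x₂ + a₄) * (x₁ + x₂)) < v x₁ ^ 2 := by
  have h0 : 0 < v x₁ := vx₁_pos hε
  have hA : v (x₁ + x₂) ≤ v x₁ := v.map_add_le le_rfl heq.ge
  have hB : v (x₁ * x₂ + a₄) < v x₁ := by
    refine v.map_add_lt ?_ hε
    rw [v_xx heq]
    exact sq_lt_self h0 h1
  refine lt_of_le_of_lt (XCore.val_T1_le v a₄ x₁ x₂) ?_
  rw [pow_two]
  exact lt_of_le_of_lt (mul_le_mul' le_rfl hA) (mul_lt_mul_of_pos_right hB h0)

/-- The numerator of `S` has valuation exactly `(v x₁)²`. -/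
theorem v_num (H : URHyp2 v b₂ a₄ x₁ x₂ r₁ r₂) (heq : v x₁ = v x₂) (h1 : v x₁ < 1)
    (hε : v a₄ < v x₁) :
    v (2 * (x₁ * x₂ + a₄) * (x₁ + x₂) + b₂ * x₁ * x₂) = v x₁ ^ 2 := by
  rw [Valuation.map_add_eq_of_lt_right v (by rw [v_dom H heq]; exact v_small heq h1 hε),
    v_dom H heq]

/-- `v S = (v x₁)² / (v (x₁ - x₂))²`. -/
theorem v_sum (H : URHyp2 v b₂ a₄ x₁ x₂ r₁ r₂) (heq : v x₁ = v x₂) (h1 : v x₁ < 1)
    (hε : v a₄ < v x₁) :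
    v ((2 * (x₁ * x₂ + a₄) * (x₁ + x₂) + b₂ * x₁ * x₂) / (x₁ - x₂) ^ 2) =
      v x₁ ^ 2 / v (x₁ - x₂) ^ 2 := by
  rw [map_div₀, v_num H heq h1 hε, map_pow]

/-- `v Π = (v (x₁ x₂ - a₄))² / (v (x₁ - x₂))²`. -/
theorem v_prod : v ((x₁ * x₂ - a₄) ^ 2 / (x₁ - x₂) ^ 2) =
    v (x₁ * x₂ - a₄) ^ 2 / v (x₁ - x₂) ^ 2 := by
  rw [map_div₀, map_pow, map_pow]

/-- `v (x₁ x₂ - a₄) < v x₁`. -/
theorem v_tau_lt (heq : v x₁ = v x₂) (h1 : v x₁ < 1) (hε : v a₄ < v x₁) :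
    v (x₁ * x₂ - a₄) < v x₁ := by
  refine v.map_sub_lt ?_ hε
  rw [v_xx heq]
  exact sq_lt_self (vx₁_pos hε) h1

/-- `1 ≤ v S`. -/
theorem one_le_v_sum (H : URHyp2 v b₂ a₄ x₁ x₂ r₁ r₂) (heq : v x₁ = v x₂) :
    1 ≤ v x₁ ^ 2 / v (x₁ - x₂) ^ 2 := by
  rw [one_le_div₀ (pow_pos (vsub_pos H) 2)]
  exact pow_le_pow_left₀ zero_le (vsub_le heq) 2

/-- The Newton polygon: one root has `1 ≤ v r`, the other one satisfies
`v r * (v x₁)² = (v (x₁ x₂ - a₄))²`. -/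
theorem roots (H : URHyp2 v b₂ a₄ x₁ x₂ r₁ r₂) (heq : v x₁ = v x₂) (h1 : v x₁ < 1)
    (hε : v a₄ < v x₁) :
    (1 ≤ v r₁ ∧ v r₂ * v x₁ ^ 2 = v (x₁ * x₂ - a₄) ^ 2) ∨
      (1 ≤ v r₂ ∧ v r₁ * v x₁ ^ 2 = v (x₁ * x₂ - a₄) ^ 2) := by
  have hd0 : 0 < v (x₁ - x₂) ^ 2 := pow_pos (vsub_pos H) 2
  have hS1 : 1 ≤ v x₁ ^ 2 / v (x₁ - x₂) ^ 2 := one_le_v_sum H heq
  have hlt : v ((x₁ * x₂ - a₄) ^ 2 / (x₁ - x₂) ^ 2) <
      v ((2 * (x₁ * x₂ + a₄) * (x₁ + x₂) + b₂ * x₁ * x₂) / (x₁ - x₂) ^ 2) ^ 2 := by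
    rw [v_prod, v_sum H heq h1 hε]
    refine lt_of_lt_of_le ?_ (le_self_pow₀ hS1 two_ne_zero)
    exact (div_lt_div_iff_of_pos_right hd0).mpr
      (pow_lt_pow_left₀ (v_tau_lt heq h1 hε) zero_le two_ne_zero)
  have key : ∀ x : Γ₀, x * (v x₁ ^ 2 / v (x₁ - x₂) ^ 2) =
      v (x₁ * x₂ - a₄) ^ 2 / v (x₁ - x₂) ^ 2 → x * v x₁ ^ 2 = v (x₁ * x₂ - a₄) ^ 2 := by
    intro x hx
    rw [← mul_div_assoc] at hx
    exact (div_left_inj' hd0.ne').mp hx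
  rcases (newton_two_roots v H.hsum H.hprod).1 hlt with ⟨h1', h2'⟩ | ⟨h1', h2'⟩
  · rw [v_sum H heq h1 hε] at h1' h2'
    rw [v_prod] at h2'
    exact Or.inl ⟨h1'.symm ▸ hS1, key _ h2'⟩
  · rw [v_sum H heq h1 hε] at h1' h2'
    rw [v_prod] at h2'
    exact Or.inr ⟨h1'.symm ▸ hS1, key _ h2'⟩

/-- Reduction to a statement on the small root. -/
theorem concl (H : URHyp2 v b₂ a₄ x₁ x₂ r₁ r₂) (heq : v x₁ = v x₂) (h1 : v x₁ < 1)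
    (hε : v a₄ < v x₁)
    (hx : ∀ x : Γ₀, x * v x₁ ^ 2 = v (x₁ * x₂ - a₄) ^ 2 →
      clip (v a₄) x = fold (v a₄) (v x₁ * v x₁)) :
    URConcl (v a₄) (v x₁) (v x₂) (v r₁) (v r₂) := by
  rw [← heq]
  refine concl_of hε h1 ?_
  rcases roots H heq h1 hε with ⟨h, h'⟩ | ⟨h, h'⟩
  · exact Or.inl ⟨h, hx _ h'⟩
  · exact Or.inr ⟨h, hx _ h'⟩

end D3c

theorem ur_D3c {K : Type*} [Field K] {Γ₀ : Type*} [LinearOrderedCommGroupWithZero Γ₀]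
    {v : Valuation K Γ₀} {b₂ a₄ x₁ x₂ r₁ r₂ : K}
    (H : URHyp2 v b₂ a₄ x₁ x₂ r₁ r₂) (heq : v x₁ = v x₂) (h1 : v x₁ < 1)
    (hε : v a₄ < v x₁) (h3 : v x₁ ^ 2 = v a₄) : URConcl (v a₄) (v x₁) (v x₂) (v r₁) (v r₂) := by
  have h0 : 0 < v x₁ := D3c.vx₁_pos hε
  have h20 : 0 < v x₁ ^ 2 := pow_pos h0 2
  have hτ : v (x₁ * x₂ - a₄) ≤ v a₄ := by
    refine v.map_sub_le ?_ le_rfl
    rw [D3c.v_xx heq, h3]
  refine D3c.concl H heq h1 hε fun x hx => ?_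
  have hxle : x ≤ v a₄ := by
    refine le_of_mul_le_mul_right ?_ h20
    rw [hx]
    rw [h3, ← pow_two]
    exact pow_le_pow_left₀ zero_le hτ 2
  rw [← pow_two, fold, if_pos h3.ge, h3]
  exact D3c.clip_of_le H.ha₄.le hxle

end Fermat.Agent.S13.TwoAdic.XCoreT
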